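import Mathlib
import Fermat.Agent.S18.B12.H33.Regular
import Fermat.Agent.S18.B12.H278.Global

/-!
# S18 / S37, b2 in FULL NORMALITY form (helper858)

`B2NormalStatement` is the statement requested by row S37 (`coord/S37-b2-request.md` of
helper37): same hypotheses as `B12.B2Statement` (NO hypothesis that `B/wB` is a domain), and
conclusion: every element `ε = b/g` of the total ring of fractions of `B/wB` (`g ∈ R[X]`,
`w ∤ g`) which is integral over `B/wB` lies in `B/wB`.

* `normal_of_bounds` : abstract core.  `Λ = P/(w)` a PID, `B/wB` torsion-free over `Λ`, and the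
  discriminant bounds of `B2CoreAbsStatement` at every prime `t` of `Λ`  ⟹  normality.
  (Global normality criterion `H278.mem_range_of_isIntegral_of_forall_prime` applied in
  `(B/wB) ⊗ Frac Λ`.)
* `b2Normal_of_pieces` : `B2CoreAbsStatement → RegSeqAbsStatement → PolyInstStatement →
  B2NormalStatement`.
* `b2Statement_of_b2Normal` : `B2NormalStatement → B2Statement` (the case `d = 2`).
-/

set_option autoImplicit false
set_option linter.style.haveILetI false
set_option linter.unusedSectionVars false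

noncomputable section

namespace Fermat.Agent.S18.B12.H858

open Polynomial Module Fermat.Agent.S37.H278

universe u v

/-- **b2, full normality form** (statement requested by row S37).  `ε = b/g` satisfies
`ε^d + ∑ a_i ε^i = 0` in the total ring of fractions of `B/wB`  ⟹  `ε ∈ B/wB`. -/
def B2NormalStatement : Prop :=
  ∀ (R : Type u) [CommRing R] [IsDomain R] [IsDiscreteValuationRing R] [CharZero R]
    (w : R) (_ : Irreducible w)
    (B : Type v) [CommRing B] [IsDomain B] [IsIntegrallyClosed B] [Algebra R[X] B]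
    [Module.Finite R[X] B] [Module.IsTorsionFree R[X] B]
    (_ : ∃ x : Fin (Module.finrank R[X] B) → B,
        ¬ C w ∣ (Matrix.of fun i j => Algebra.intTrace R[X] B (x i * x j)).det)
    (S : Finset R) (_ : ∀ c ∈ S, ∀ c' ∈ S, c ≠ c' → IsUnit (c - c'))
    (_ : ∀ π : R[X], Prime π → ¬ Associated π (C w) → (∀ c ∈ S, ¬ Associated π (X - C c)) →
        (Ideal.span {algebraMap R[X] B π}).IsRadical)
    (b : B) (g : R[X]), ¬ C w ∣ g →
    (∃ (d : ℕ) (a : Fin d → B),
        b ^ d + ∑ i : Fin d, a i * b ^ (i : ℕ) * algebraMap R[X] B g ^ (d - (i : ℕ)) ∈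
          Ideal.span {algebraMap R[X] B (C w)}) →
      ∃ b₀ : B, b - algebraMap R[X] B g * b₀ ∈ Ideal.span {algebraMap R[X] B (C w)}

section Abs

variable {P : Type u} [CommRing P] [IsDomain P]
  {B : Type v} [CommRing B] [Algebra P B] [Module.Finite P B]

/-- **Abstract core.**  If `Λ = P/(w)` is a PID, `B/wB` is torsion-free over `Λ` and the
discriminant bound holds at every prime `t` of `Λ` (for one basis of `B/wB`), then `B/wB` is
integrally closed in its total ring of fractions, elementwise. -/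
theorem normal_of_bounds (w : P) (hw : Prime w)
    (hΛ : IsPrincipalIdealRing (P ⧸ Ideal.span {w}))
    (htf : Module.IsTorsionFree (P ⧸ Ideal.span {w})
      (B ⧸ (Ideal.span {w}).map (algebraMap P B)))
    (hloc : ∀ (t : P ⧸ Ideal.span {w}), Prime t → ∀ (n : ℕ)
      (bb : Module.Basis (Fin n) (P ⧸ Ideal.span {w})
        (B ⧸ (Ideal.span {w}).map (algebraMap P B))),
      ∃ (s : ℕ) (y : Fin s → B ⧸ (Ideal.span {w}).map (algebraMap P B)),
        (∀ c : B ⧸ (Ideal.span {w}).map (algebraMap P B), ∃ a : Fin s → P ⧸ Ideal.span {w},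
          c - ∑ i, a i • y i ∈ (Ideal.span {algebraMap (P ⧸ Ideal.span {w})
            (B ⧸ (Ideal.span {w}).map (algebraMap P B)) t}).radical) ∧
        ¬ t ^ (n - s + 1) ∣ Algebra.discr (P ⧸ Ideal.span {w}) bb)
    (b : B) (g : P) (hg : ¬ w ∣ g) (d : ℕ) (a : Fin d → B)
    (h : b ^ d + ∑ i : Fin d, a i * b ^ (i : ℕ) * algebraMap P B g ^ (d - (i : ℕ)) ∈
      Ideal.span {algebraMap P B w}) :
    ∃ b₀ : B, b - algebraMap P B g * b₀ ∈ Ideal.span {algebraMap P B w} := by
  classical
  have hJ : (Ideal.span {w}).map (algebraMap P B) = Ideal.span {algebraMap P B w} := by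
    rw [Ideal.map_span, Set.image_singleton]
  haveI := hΛ
  haveI hdomΛ : IsDomain (P ⧸ Ideal.span {w}) := by
    rw [Ideal.Quotient.isDomain_iff_prime]
    exact (Ideal.span_singleton_prime hw.ne_zero).mpr hw
  haveI := htf
  haveI : Module.Finite (P ⧸ Ideal.span {w}) (B ⧸ (Ideal.span {w}).map (algebraMap P B)) :=
    Module.Finite.of_restrictScalars_finite P _ _
  haveI : Module.Free (P ⧸ Ideal.span {w}) (B ⧸ (Ideal.span {w}).map (algebraMap P B)) :=
    Module.free_of_finite_type_torsion_free'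
  -- abbreviations
  let Λ := P ⧸ Ideal.span {w}
  let Cq := B ⧸ (Ideal.span {w}).map (algebraMap P B)
  let bb : Module.Basis (Fin (Module.finrank Λ Cq)) Λ Cq := Module.finBasis Λ Cq
  let L₀ := Localization (Algebra.algebraMapSubmonoid Cq (nonZeroDivisors Λ))
  have hinj : Function.Injective (algebraMap Cq L₀) := algebraMap_injective_of_free (o := Λ) L₀
  have hunit : ∀ c : Λ, c ≠ 0 → IsUnit (algebraMap Λ L₀ c) := by
    intro c hc
    rw [IsScalarTower.algebraMap_apply Λ Cq L₀]
    exact IsLocalization.map_units L₀ (⟨algebraMap Λ Cq c, ⟨c, mem_nonZeroDivisors_of_ne_zero hc,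
      rfl⟩⟩ : Algebra.algebraMapSubmonoid Cq (nonZeroDivisors Λ))
  have hL : ∀ (c : Λ) (l : L₀), c ≠ 0 → c • l = 0 → l = 0 := by
    intro c l hc h
    rw [Algebra.smul_def] at h
    exact ((hunit c hc).mul_right_eq_zero).mp h
  -- the elements
  set gq : Λ := Ideal.Quotient.mk (Ideal.span {w}) g with hgq
  have hgq0 : gq ≠ 0 := by
    intro h0
    exact hg (Ideal.mem_span_singleton.mp (Ideal.Quotient.eq_zero_iff_mem.mp h0))
  set bq : Cq := Ideal.Quotient.mk _ b with hbq
  obtain ⟨gi, hgi⟩ := (hunit gq hgq0).exists_left_inv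
  obtain ⟨ε, hε⟩ : ∃ ε : L₀, ε = gi * algebraMap Cq L₀ bq := ⟨_, rfl⟩
  have hGε : algebraMap Λ L₀ gq * ε = algebraMap Cq L₀ bq := by
    rw [hε, ← mul_assoc, mul_comm _ gi, hgi, one_mul]
  have hgε : gq • ε = algebraMap Cq L₀ bq := by
    rw [Algebra.smul_def, hGε]
  -- the relation in the special fibre
  have hrel : bq ^ d + ∑ i : Fin d,
      (Ideal.Quotient.mk ((Ideal.span {w}).map (algebraMap P B)) (a i)) * bq ^ (i : ℕ) *
        (algebraMap Λ Cq gq) ^ (d - (i : ℕ)) = 0 := by
    have h1 : Ideal.Quotient.mk ((Ideal.span {w}).map (algebraMap P B))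
        (b ^ d + ∑ i : Fin d, a i * b ^ (i : ℕ) * algebraMap P B g ^ (d - (i : ℕ))) = 0 := by
      rw [Ideal.Quotient.eq_zero_iff_mem, hJ]
      exact h
    rw [map_add, map_pow, map_sum] at h1
    rw [← h1]
    congr 1
  -- `ε` is integral over `Cq`
  have hεC : IsIntegral Cq ε := by
    refine ⟨X ^ d + ∑ i : Fin d,
      Polynomial.C (Ideal.Quotient.mk ((Ideal.span {w}).map (algebraMap P B)) (a i)) *
        X ^ (i : ℕ), ?_, ?_⟩
    · exact Polynomial.monic_X_pow_add (Polynomial.degree_sum_fin_lt _)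
    · rw [Polynomial.eval₂_add, Polynomial.eval₂_pow, Polynomial.eval₂_X,
        Polynomial.eval₂_finsetSum]
      simp only [Polynomial.eval₂_mul, Polynomial.eval₂_C, Polynomial.eval₂_pow,
        Polynomial.eval₂_X]
      -- multiply by the unit `gq ^ d`
      have hu : IsUnit ((algebraMap Λ L₀ gq) ^ d) := (hunit gq hgq0).pow d
      apply (hu.mul_right_eq_zero).mp
      have hkey : (algebraMap Λ L₀ gq) ^ d * (ε ^ d + ∑ i : Fin d,
          algebraMap Cq L₀ (Ideal.Quotient.mk ((Ideal.span {w}).map (algebraMap P B)) (a i)) *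
            ε ^ (i : ℕ)) = algebraMap Cq L₀ (bq ^ d + ∑ i : Fin d,
          (Ideal.Quotient.mk ((Ideal.span {w}).map (algebraMap P B)) (a i)) * bq ^ (i : ℕ) *
            (algebraMap Λ Cq gq) ^ (d - (i : ℕ))) := by
        rw [map_add, map_pow, map_sum, mul_add, Finset.mul_sum, ← mul_pow, hGε]
        congr 1
        refine Finset.sum_congr rfl fun i _ => ?_
        rw [map_mul, map_mul, map_pow, map_pow, ← hGε,
          ← IsScalarTower.algebraMap_apply Λ Cq L₀, mul_pow]
        have hi : (i : ℕ) ≤ d := i.2.le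
        have hpow : algebraMap Λ L₀ gq ^ d =
            algebraMap Λ L₀ gq ^ (i : ℕ) * algebraMap Λ L₀ gq ^ (d - (i : ℕ)) := by
          rw [← pow_add, Nat.add_sub_cancel' hi]
        rw [hpow]
        ring
      rw [hkey, hrel, map_zero]
  have hεΛ : IsIntegral Λ ε := isIntegral_trans ε hεC
  -- apply the global normality criterion
  have hloc' : ∀ t : Λ, Prime t → ∃ (s : ℕ) (y : Fin s → Cq),
      (∀ x : Cq, ∃ c : Fin s → Λ,
        x - ∑ i, c i • y i ∈ (Ideal.span {algebraMap Λ Cq t}).radical) ∧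
      ¬ t ^ (Fintype.card (Fin (Module.finrank Λ Cq)) - s + 1) ∣ Algebra.discr Λ bb := by
    intro t ht
    obtain ⟨s, y, hy, hd⟩ := hloc t ht _ bb
    exact ⟨s, y, hy, by simpa using hd⟩
  obtain ⟨c, hc⟩ := Fermat.Agent.S18.B12.H278.mem_range_of_isIntegral_of_forall_prime hL
    (IsScalarTower.toAlgHom Λ Cq L₀) hinj bb hloc' ε hεΛ ⟨gq, hgq0, bq, hgε.symm⟩
  have hc' : algebraMap Cq L₀ c = ε := hc
  obtain ⟨b₀, rfl⟩ := Ideal.Quotient.mk_surjective c
  refine ⟨b₀, ?_⟩
  rw [← hJ, ← Ideal.Quotient.eq_zero_iff_mem, map_sub, map_mul, sub_eq_zero]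
  apply hinj
  have h2 : algebraMap Cq L₀ (Ideal.Quotient.mk ((Ideal.span {w}).map (algebraMap P B))
      (algebraMap P B g)) = algebraMap Λ L₀ gq := by
    rw [IsScalarTower.algebraMap_apply Λ Cq L₀]
    rfl
  rw [map_mul, hc', h2, ← Algebra.smul_def, hgε]

end Abs

/-- **b2 in full normality form, from the frozen pieces** (heart `B2CoreAbsStatement`, A0 and
A1). -/
theorem b2Normal_of_pieces
    (hcore : B2CoreAbsStatement.{u, v}) (hA0 : RegSeqAbsStatement.{u, v})
    (hA1 : PolyInstStatement.{u}) : B2NormalStatement.{u, v} := by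
  intro R _ _ _ _ w hw B _ _ _ _ _ _ hsep S hS hNC b g hg hint
  obtain ⟨d, a, hda⟩ := hint
  obtain ⟨hCw, hΛ, hΛ₀, hℚ, hc⟩ := hA1 R w hw
  classical
  have hS1' : ∀ s ∈ S.image (fun c => (X - C c : R[X])), Prime s ∧ ¬ Associated s (C w) ∧
      (Ideal.span {(C w : R[X]), s}).IsMaximal ∧
      IsPrincipalIdealRing (R[X] ⧸ Ideal.span {s}) := by
    intro s hs
    obtain ⟨c, -, rfl⟩ := Finset.mem_image.mp hs
    obtain ⟨h1, h2, h3, h4, -⟩ := hc c
    exact ⟨h1, h2, h3, h4⟩
  have hS2' : ∀ s ∈ S.image (fun c => (X - C c : R[X])),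
      ∀ s' ∈ S.image (fun c => (X - C c : R[X])), s ≠ s' →
      s' ∉ Ideal.span {(C w : R[X]), s} := by
    intro s hs s' hs' hne hmem
    obtain ⟨c, hcS, rfl⟩ := Finset.mem_image.mp hs
    obtain ⟨c', hcS', rfl⟩ := Finset.mem_image.mp hs'
    have hcc : c ≠ c' := fun h => hne (by rw [h])
    exact (hc c).2.2.2.2 c' hmem (hS c hcS c' hcS' hcc)
  have hNC' : ∀ π : R[X], Prime π → ¬ Associated π (C w) →
      (∀ s ∈ S.image (fun c => (X - C c : R[X])), ¬ Associated π s) →
      (Ideal.span {algebraMap R[X] B π}).IsRadical := by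
    intro π hπ hπw hπS
    exact hNC π hπ hπw (fun c hcS => hπS _ (Finset.mem_image_of_mem _ hcS))
  have hcore' := hcore R[X] (C w) hCw hΛ hΛ₀ hℚ B hsep (S.image (fun c => (X - C c : R[X])))
    hS1' hS2' hNC'
  have htf := H33.isTorsionFree_quotient (B := B) hA0 (C w : R[X]) hCw
  exact normal_of_bounds (C w : R[X]) hCw hΛ htf
    (fun t ht n bb => (hcore' t ht n bb).2) b g hg d a hda

/-- The idempotent form `B2Statement` is the case `d = 2` of the normality form. -/
theorem b2Statement_of_b2Normal (h : B2NormalStatement.{u, v}) : B2Statement.{u, v} := by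
  intro R _ _ _ _ w hw B _ _ _ _ _ _ hsep S hS hNC b g hg hb
  refine h R w hw B hsep S hS hNC b g hg ⟨2, ![0, -1], ?_⟩
  have : b ^ 2 + ∑ i : Fin 2, (![0, -1] : Fin 2 → B) i * b ^ (i : ℕ) *
      algebraMap R[X] B g ^ (2 - (i : ℕ)) = b ^ 2 - algebraMap R[X] B g * b := by
    simp [Fin.sum_univ_two]
    ring
  rw [this]
  exact hb

end Fermat.Agent.S18.B12.H858
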