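import Mathlib
import Fermat.Agent.S18.B12.H858.Normal
import Fermat.Agent.S18.B12.H33.B2Regular

/-!
# S18 / S37, b2 in FULL NORMALITY form, UNCONDITIONAL (helper858)

* `b2Normal : B2NormalStatement` — the statement requested by row S37
  (`coord/S37-b2-request.md` of helper37), exactly as requested: the hypotheses are those of
  `B12.B2Statement` (the special fibre `B/wB` is NOT assumed to be a domain).
  For `b : B`, `g : R[X]` with `w ∤ g`: if `b^d + ∑_{i<d} a_i b^i g^(d-i) ∈ wB` for some
  `a_i ∈ B` then `b - g b₀ ∈ wB` for some `b₀ ∈ B`.
* `b2 : B2Statement` — output O2 of the squad S18/S33 plan (idempotent form), the case `d = 2`.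

Pieces: heart `H33.b2CoreAbs`, A0 `H93.regSeqAbs`, A1 `H203.polyInst` (all on main) and the global
normality criterion `H278.mem_range_of_isIntegral_of_forall_prime`.
-/

set_option autoImplicit false

namespace Fermat.Agent.S18.B12.H858

universe u v

/-- **b2, full normality form, unconditional.** -/
theorem b2Normal : B2NormalStatement.{u, v} :=
  b2Normal_of_pieces H33.b2CoreAbs H93.regSeqAbs H203.polyInst

/-- **O2 = b2, idempotent form, unconditional.** -/
theorem b2 : B2Statement.{u, v} :=
  b2Statement_of_b2Normal b2Normal

end Fermat.Agent.S18.B12.H858
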